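import Mathlib
import Fermat.Agent.S52.H93.KleinAway
import Fermat.Agent.S52.H34.NoRoot

/-!
# S52 / E6-HYP: the hypotheses of (I-a) for the Klein line `n • v₀ + m • w(v₀)`

`K` a field of characteristic `0`, `(x₀, y₀) ∈ K²` with `f(x₀, y₀) ≠ 0`, `m ≠ 0`.  On the line
`lx = x₀ X + m w_x`, `ly = y₀ X + m w_y` (polynomials in `X = n`) put `a = 27 H(lx, ly)`,
`b = 54 T(lx, ly)`, `D = f(lx, ly)`.  Then `4a³ + 27b² = 136048896 D⁵`, `D` is squarefree of
degree `12`, `a` is coprime to `D`, and consequently (landed `H34.no_root_quartic`) the quartic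
`y⁴ + 18 a y² + 108 b y − 27 a²` has no root in `K[X]`.
-/

set_option autoImplicit false
set_option linter.unusedSectionVars false

namespace Fermat.Agent.S52.H61

open Polynomial
open Fermat.Agent.S52.H93 (kf kH kT kwx kwy)

section Forms

variable {R S : Type*} [CommRing R] [CommRing S]

lemma map_kf {F : Type*} [FunLike F R S] [RingHomClass F R S] (φ : F) (x y : R) : φ (kf x y) = kf (φ x) (φ y) := by
  simp only [kf, map_mul, map_add, map_sub, map_pow, map_ofNat]

lemma map_kH {F : Type*} [FunLike F R S] [RingHomClass F R S] (φ : F) (x y : R) : φ (kH x y) = kH (φ x) (φ y) := by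
  simp only [kH, map_mul, map_add, map_sub, map_neg, map_pow, map_ofNat]

lemma map_kT {F : Type*} [FunLike F R S] [RingHomClass F R S] (φ : F) (x y : R) : φ (kT x y) = kT (φ x) (φ y) := by
  simp only [kT, map_mul, map_add, map_sub, map_pow, map_ofNat]

lemma map_kwx {F : Type*} [FunLike F R S] [RingHomClass F R S] (φ : F) (x y : R) : φ (kwx x y) = kwx (φ x) (φ y) := by
  simp only [kwx, map_mul, map_add, map_sub, map_pow, map_ofNat]

lemma map_kwy {F : Type*} [FunLike F R S] [RingHomClass F R S] (φ : F) (x y : R) : φ (kwy x y) = kwy (φ x) (φ y) := by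
  simp only [kwy, map_mul, map_add, map_sub, map_neg, map_pow, map_ofNat]

/-- Certificate: the gradient of `f` has no zero but the origin. -/
theorem grad_cert (x y : R) :
    (-(121 * x ^ 5) - 748 * y ^ 5) * y * kwx x y - (11 * x ^ 5 + 728 * y ^ 5) * x * kwy x y
      = 7500 * x * y ^ 16 := by
  simp only [kwx, kwy]
  ring

/-- Euler's relation for the gradient `(f_x, f_y) = (-w_y, w_x)`. -/
theorem euler_grad (x y : R) : y * kwx x y - x * kwy x y = 12 * kf x y := by
  simp only [kwx, kwy, kf]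
  ring

/-- The discriminant identity on any pair. -/
theorem disc_identity (x y : R) :
    4 * (27 * kH x y) ^ 3 + 27 * (54 * kT x y) ^ 2 = 136048896 * kf x y ^ 5 := by
  have h := H93.kT_sq_add_kH_cube x y
  linear_combination 78732 * h

end Forms

section Field

variable {k : Type*} [Field k]

/-- Over a field with `2, 3, 5 ≠ 0` the gradient of `f` vanishes only at the origin. -/
theorem eq_zero_of_kwx_kwy (h2 : (2 : k) ≠ 0) (h3 : (3 : k) ≠ 0) (h5 : (5 : k) ≠ 0) {x y : k}
    (hx : kwx x y = 0) (hy : kwy x y = 0) : x = 0 ∧ y = 0 := by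
  have h7500 : (7500 : k) ≠ 0 := by
    have : (7500 : k) = 2 ^ 2 * 3 * 5 ^ 4 := by norm_num
    rw [this]
    exact mul_ne_zero (mul_ne_zero (pow_ne_zero 2 h2) h3) (pow_ne_zero 4 h5)
  have hc := grad_cert x y
  rw [hx, hy, mul_zero, mul_zero, sub_zero] at hc
  rcases mul_eq_zero.mp hc.symm with h | h
  · rcases mul_eq_zero.mp h with h | h
    · exact absurd h h7500
    · subst h
      refine ⟨rfl, ?_⟩
      have e : kwy (0 : k) y = y ^ 11 := by simp only [kwy]; ring
      rw [e] at hy
      exact pow_eq_zero_iff (by norm_num) |>.mp hy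
  · have hy0 : y = 0 := pow_eq_zero_iff (by norm_num) |>.mp h
    subst hy0
    refine ⟨?_, rfl⟩
    have e : kwx x (0 : k) = x ^ 11 := by simp only [kwx]; ring
    rw [e] at hx
    exact pow_eq_zero_iff (by norm_num) |>.mp hx

/-- First coordinate of the line `n • v₀ + m • w(v₀)`, as a polynomial in `n = X`. -/
noncomputable def lineX (x0 y0 m : k) : k[X] := C x0 * X + C (m * kwx x0 y0)

/-- Second coordinate of the line `n • v₀ + m • w(v₀)`, as a polynomial in `n = X`. -/
noncomputable def lineY (x0 y0 m : k) : k[X] := C y0 * X + C (m * kwy x0 y0)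

lemma derivative_lineX (x0 y0 m : k) : derivative (lineX x0 y0 m) = C x0 := by
  simp [lineX]

lemma derivative_lineY (x0 y0 m : k) : derivative (lineY x0 y0 m) = C y0 := by
  simp [lineY]

/-- Chain rule for `f` along a pair of polynomials with constant derivatives. -/
lemma derivative_kf {p q : k[X]} {x0 y0 : k} (hp : derivative p = C x0)
    (hq : derivative q = C y0) :
    derivative (kf p q) = C y0 * kwx p q - C x0 * kwy p q := by
  simp only [kf, kwx, kwy, derivative_mul, derivative_add, derivative_sub, derivative_pow,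
    derivative_ofNat, hp, hq, Nat.cast_ofNat, map_ofNat, Nat.reduceSub]
  ring

section Eval

variable {L : Type*} [Field L] [Algebra k L]

lemma aeval_lineX (x0 y0 m : k) (a : L) :
    aeval a (lineX x0 y0 m) =
      a * algebraMap k L x0 + algebraMap k L m * kwx (algebraMap k L x0) (algebraMap k L y0) := by
  rw [lineX, map_add, map_mul, aeval_C, aeval_X, aeval_C, map_mul, map_kwx]
  ring

lemma aeval_lineY (x0 y0 m : k) (a : L) :
    aeval a (lineY x0 y0 m) =
      a * algebraMap k L y0 + algebraMap k L m * kwy (algebraMap k L x0) (algebraMap k L y0) := by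
  rw [lineY, map_add, map_mul, aeval_C, aeval_X, aeval_C, map_mul, map_kwy]
  ring

end Eval

variable [CharZero k]

/-- The discriminant identity on the line. -/
theorem family_disc (x0 y0 m : k) :
    4 * (27 * kH (lineX x0 y0 m) (lineY x0 y0 m)) ^ 3
        + 27 * (54 * kT (lineX x0 y0 m) (lineY x0 y0 m)) ^ 2
      = C (136048896 : k) * kf (lineX x0 y0 m) (lineY x0 y0 m) ^ 5 := by
  rw [disc_identity, map_ofNat]

/-- The determinant of `v₀` and the point of the line with parameter `a`. -/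
lemma line_det {L : Type*} [CommRing L] (X0 Y0 M a : L) :
    X0 * (a * Y0 + M * kwy X0 Y0) - Y0 * (a * X0 + M * kwx X0 Y0) = -12 * M * kf X0 Y0 := by
  have h := H93.euler_det X0 Y0
  linear_combination M * h

/-- `a = 27 H` is coprime to `D = f` on the line. -/
theorem family_coprime (x0 y0 m : k) (hf : kf x0 y0 ≠ 0) (hm : m ≠ 0) :
    IsCoprime (27 * kH (lineX x0 y0 m) (lineY x0 y0 m)) (kf (lineX x0 y0 m) (lineY x0 y0 m)) := by
  rw [Polynomial.isCoprime_iff_aeval_ne_zero_of_isAlgClosed k (AlgebraicClosure k)]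
  intro a
  by_contra hcon
  push Not at hcon
  obtain ⟨hH, hD⟩ := hcon
  set φ := algebraMap k (AlgebraicClosure k) with hφ
  have hφinj : Function.Injective φ := φ.injective
  have h5 : (5 : AlgebraicClosure k) ≠ 0 := by norm_num
  have h27 : (27 : AlgebraicClosure k) ≠ 0 := by norm_num
  have h12 : (12 : AlgebraicClosure k) ≠ 0 := by norm_num
  rw [map_mul, map_ofNat, map_kH, aeval_lineX, aeval_lineY] at hH
  rw [map_kf, aeval_lineX, aeval_lineY] at hD
  have hH' := (mul_eq_zero.mp hH).resolve_left h27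
  obtain ⟨hu1, hu2⟩ := H93.eq_zero_of_kf_kH h5 hD hH'
  have hdet := line_det (φ x0) (φ y0) (φ m) a
  rw [hu1, hu2, mul_zero, mul_zero, sub_zero] at hdet
  have hfne : kf (φ x0) (φ y0) ≠ 0 := by
    rw [← map_kf]; exact fun h => hf (hφinj (by rw [h, map_zero]))
  have hmne : φ m ≠ 0 := fun h => hm (hφinj (by rw [h, map_zero]))
  exact mul_ne_zero (mul_ne_zero (neg_ne_zero.mpr h12) hmne) hfne hdet.symm

/-- `D = f` on the line is squarefree. -/
theorem family_squarefree (x0 y0 m : k) (hf : kf x0 y0 ≠ 0) (hm : m ≠ 0) :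
    Squarefree (kf (lineX x0 y0 m) (lineY x0 y0 m)) := by
  rw [← PerfectField.separable_iff_squarefree, Polynomial.separable_def,
    derivative_kf (derivative_lineX x0 y0 m) (derivative_lineY x0 y0 m),
    Polynomial.isCoprime_iff_aeval_ne_zero_of_isAlgClosed k (AlgebraicClosure k)]
  intro a
  by_contra hcon
  push Not at hcon
  obtain ⟨hD, hD'⟩ := hcon
  set φ := algebraMap k (AlgebraicClosure k) with hφ
  have hφinj : Function.Injective φ := φ.injective
  have h2 : (2 : AlgebraicClosure k) ≠ 0 := by norm_num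
  have h3 : (3 : AlgebraicClosure k) ≠ 0 := by norm_num
  have h5 : (5 : AlgebraicClosure k) ≠ 0 := by norm_num
  have h12 : (12 : AlgebraicClosure k) ≠ 0 := by norm_num
  rw [map_kf, aeval_lineX, aeval_lineY] at hD
  rw [map_sub, map_mul, map_mul, aeval_C, aeval_C, map_kwx, map_kwy, aeval_lineX,
    aeval_lineY] at hD'
  set u1 := a * φ x0 + φ m * kwx (φ x0) (φ y0) with hu1
  set u2 := a * φ y0 + φ m * kwy (φ x0) (φ y0) with hu2
  have hE := euler_grad u1 u2
  rw [hD, mul_zero] at hE
  have hdet : φ x0 * u2 - φ y0 * u1 = -12 * φ m * kf (φ x0) (φ y0) :=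
    line_det (φ x0) (φ y0) (φ m) a
  have hfne : kf (φ x0) (φ y0) ≠ 0 := by
    rw [← map_kf]; exact fun h => hf (hφinj (by rw [h, map_zero]))
  have hmne : φ m ≠ 0 := fun h => hm (hφinj (by rw [h, map_zero]))
  have hδ : φ x0 * u2 - φ y0 * u1 ≠ 0 := by
    rw [hdet]; exact mul_ne_zero (mul_ne_zero (neg_ne_zero.mpr h12) hmne) hfne
  have hgx : (φ x0 * u2 - φ y0 * u1) * kwx u1 u2 = 0 := by
    linear_combination φ x0 * hE - u1 * hD'
  have hgy : (φ x0 * u2 - φ y0 * u1) * kwy u1 u2 = 0 := by
    linear_combination φ y0 * hE - u2 * hD'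
  have hx := (mul_eq_zero.mp hgx).resolve_left hδ
  have hy := (mul_eq_zero.mp hgy).resolve_left hδ
  obtain ⟨h1, h2'⟩ := eq_zero_of_kwx_kwy h2 h3 h5 hx hy
  apply hδ
  rw [h1, h2', mul_zero, mul_zero, sub_zero]

theorem natDegree_kf_line (x0 y0 m : k) (hf : kf x0 y0 ≠ 0) :
    (kf (lineX x0 y0 m) (lineY x0 y0 m)).natDegree = 12 := by
  unfold kf at hf
  unfold kf lineX lineY
  compute_degree
  · exact hf
  all_goals norm_num

theorem natDegree_kH_line_le (x0 y0 m : k) :
    (27 * kH (lineX x0 y0 m) (lineY x0 y0 m)).natDegree ≤ 20 := by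
  unfold kH lineX lineY
  compute_degree

theorem natDegree_kT_line_le (x0 y0 m : k) :
    (54 * kT (lineX x0 y0 m) (lineY x0 y0 m)).natDegree ≤ 30 := by
  unfold kT lineX lineY
  compute_degree

/-- **E6-HYP.**  On the Klein line `n • v₀ + m • w(v₀)` (`f(v₀) ≠ 0`, `m ≠ 0`, characteristic
`0`), the quartic `y⁴ + 18 a y² + 108 b y − 27 a²` with `a = 27 H`, `b = 54 T` has no root in
`k[X]`. -/
theorem family_no_root (x0 y0 m : k) (hf : kf x0 y0 ≠ 0) (hm : m ≠ 0) (y : k[X]) :
    y ^ 4 + 18 * (27 * kH (lineX x0 y0 m) (lineY x0 y0 m)) * y ^ 2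
        + 108 * (54 * kT (lineX x0 y0 m) (lineY x0 y0 m)) * y
        - 27 * (27 * kH (lineX x0 y0 m) (lineY x0 y0 m)) ^ 2 ≠ 0 :=
  H34.no_root_quartic _ _ (kf (lineX x0 y0 m) (lineY x0 y0 m)) y 136048896 (by norm_num)
    (family_disc x0 y0 m) (family_squarefree x0 y0 m hf hm) (family_coprime x0 y0 m hf hm)
    (natDegree_kH_line_le x0 y0 m) (natDegree_kT_line_le x0 y0 m)
    (by rw [natDegree_kf_line x0 y0 m hf]; norm_num)

/-- Descent form: if polynomials `a₀, b₀` over a field `K₀` map to `27 H`, `54 T` on the line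
under a field homomorphism `K₀ → k`, then the quartic over `K₀[X]` has no root. -/
theorem family_no_root_of_map {K₀ : Type*} [Field K₀] (φ : K₀ →+* k) (a₀ b₀ : K₀[X])
    (x0 y0 m : k) (hf : kf x0 y0 ≠ 0) (hm : m ≠ 0)
    (ha : a₀.map φ = 27 * kH (lineX x0 y0 m) (lineY x0 y0 m))
    (hb : b₀.map φ = 54 * kT (lineX x0 y0 m) (lineY x0 y0 m)) (y : K₀[X]) :
    y ^ 4 + 18 * a₀ * y ^ 2 + 108 * b₀ * y - 27 * a₀ ^ 2 ≠ 0 := by
  intro h
  apply family_no_root x0 y0 m hf hm (y.map φ)
  have h' := congrArg (Polynomial.map φ) h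
  simp only [Polynomial.map_sub, Polynomial.map_add, Polynomial.map_mul, Polynomial.map_pow,
    Polynomial.map_ofNat, Polynomial.map_zero, ha, hb] at h'
  exact h'

end Field

end Fermat.Agent.S52.H61
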