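import Mathlib
import Fermat.Agent.S05.H60.TorsionIntegral
import Fermat.Agent.S05.H63.Reduction

/-!
# Reduction of points is a group homomorphism (good reduction, arbitrary valuation subring)

`A` is a valuation subring of a field `L`, `π : A →+* k` a ring homomorphism to a field whose
kernel is the maximal ideal, `WA` a Weierstrass curve with coefficients in `A` whose reduction
`WA.map π` has nonzero discriminant.  Then the reduction map on points
`(WA.map A.subtype).Point → (WA.map π).Point` (points with non-integral `x`-coordinate go to `0`)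
is a group homomorphism whose kernel is the kernel of reduction `E1`.
-/

set_option autoImplicit false
set_option linter.unusedSectionVars false

namespace Fermat.Agent.S52.H61

open WeierstrassCurve WeierstrassCurve.Affine
open Fermat.Agent.S05.H60 (xc IntegralCoeffs E1 mem_E1_iff)

section Basic

variable {L : Type*} [Field L] {k : Type*} [Field k]

/-- Good reduction data: the kernel of `π` is the maximal ideal and the reduced curve is
nonsingular. -/
structure GoodRed (A : ValuationSubring L) (π : A →+* k) (WA : Affine A) : Prop where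
  ker : ∀ a : A, π a = 0 ↔ (a : L) ∈ A.nonunits
  disc : (WA.map π).Δ ≠ 0

variable {A : ValuationSubring L} {π : A →+* k} {WA : Affine A}

lemma integralCoeffs_map (A : ValuationSubring L) (WA : Affine A) :
    IntegralCoeffs A (WA.map A.subtype).toAffine :=
  ⟨(WA.a₁).2, (WA.a₂).2, (WA.a₃).2, (WA.a₄).2, (WA.a₆).2⟩

/-- An integral `x`-coordinate forces an integral `y`-coordinate. -/
lemma y_mem_of_x_mem (A : ValuationSubring L) (W : Affine L) (hW : IntegralCoeffs A W)
    {x y : L} (h : W.Equation x y) (hx : x ∈ A) : y ∈ A := by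
  have ha₁ := hW.a₁; have ha₂ := hW.a₂; have ha₃ := hW.a₃; have ha₄ := hW.a₄; have ha₆ := hW.a₆
  rw [Affine.equation_iff] at h
  by_contra hy
  have hy1 : 1 < A.valuation y := by
    rw [← not_le, A.valuation_le_one_iff]
    exact hy
  have hy0 : A.valuation y ≠ 0 := (lt_trans zero_lt_one hy1).ne'
  have e : y ^ 2 = (x ^ 3 + W.a₂ * x ^ 2 + W.a₄ * x + W.a₆) - (W.a₁ * x + W.a₃) * y := by
    linear_combination h
  have h1 : A.valuation (x ^ 3 + W.a₂ * x ^ 2 + W.a₄ * x + W.a₆) ≤ 1 := by
    rw [A.valuation_le_one_iff]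
    aesop
  have h2 : A.valuation (W.a₁ * x + W.a₃) ≤ 1 := by
    rw [A.valuation_le_one_iff]
    aesop
  have h3 : A.valuation (y ^ 2) ≤ A.valuation y := by
    rw [e]
    refine le_trans (A.valuation.map_sub _ _) (max_le (h1.trans hy1.le) ?_)
    rw [map_mul]
    calc A.valuation (W.a₁ * x + W.a₃) * A.valuation y ≤ 1 * A.valuation y := by gcongr
      _ = A.valuation y := one_mul _
  rw [map_pow, sq] at h3
  have h4 : A.valuation y ≤ 1 := by
    have := mul_le_mul_of_nonneg_right h3 (zero_le (a := (A.valuation y)⁻¹))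
    rwa [mul_assoc, mul_inv_cancel₀ hy0, mul_one] at this
  exact absurd h4 (not_le.mpr hy1)

lemma GoodRed.isUnit_of_ne_zero (h : GoodRed A π WA) {a : A} (ha : π a ≠ 0) : IsUnit a := by
  by_contra hu
  apply ha
  rw [h.ker]
  rw [A.coe_mem_nonunits_iff, IsLocalRing.mem_maximalIdeal]
  exact hu

lemma GoodRed.exists_mul_eq_one (h : GoodRed A π WA) {a : A} (ha : π a ≠ 0) :
    ∃ u : A, a * u = 1 := by
  obtain ⟨u, hu⟩ := (h.isUnit_of_ne_zero ha)
  exact ⟨((u⁻¹ : Aˣ) : A), by rw [← hu]; exact u.mul_inv⟩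

lemma GoodRed.mem_nonunits_of_eq (h : GoodRed A π WA) {a b : A} (hab : π a = π b) :
    (a : L) - (b : L) ∈ A.nonunits := by
  have : π (a - b) = 0 := by rw [map_sub, hab, sub_self]
  exact (h.ker _).mp this

/-- The equation over `A` follows from the equation over `L`. -/
lemma equation_of_coe {X Y : A} (hXY : (WA.map A.subtype).toAffine.Equation (X : L) (Y : L)) :
    WA.Equation X Y :=
  (Affine.map_equation WA (f := A.subtype) Subtype.val_injective X Y).mp hXY

lemma GoodRed.nonsingular_red (h : GoodRed A π WA) {X Y : A}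
    (hXY : (WA.map A.subtype).toAffine.Equation (X : L) (Y : L)) :
    (WA.map π).toAffine.Nonsingular (π X) (π Y) :=
  (Affine.equation_iff_nonsingular_of_Δ_ne_zero h.disc).mp
    (Affine.Equation.map π (equation_of_coe hXY))

end Basic

section Red

variable {L : Type*} [Field L] {k : Type*} [Field k]
variable {A : ValuationSubring L} {π : A →+* k} {WA : Affine A}

open Classical in
/-- The reduction map on points (as a function). -/
noncomputable def redFun (h : GoodRed A π WA) :
    (WA.map A.subtype).toAffine.Point → (WA.map π).toAffine.Point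
  | .zero => 0
  | .some x y hxy =>
    if hx : x ∈ A then
      .some (π ⟨x, hx⟩) (π ⟨y, y_mem_of_x_mem A _ (integralCoeffs_map A WA) hxy.1 hx⟩)
        (h.nonsingular_red (X := ⟨x, hx⟩)
          (Y := ⟨y, y_mem_of_x_mem A _ (integralCoeffs_map A WA) hxy.1 hx⟩) hxy.1)
    else 0

@[simp] lemma redFun_zero (h : GoodRed A π WA) : redFun h 0 = 0 := rfl

lemma some_eq_some {F : Type*} [Field F] {W : Affine F} {x y x' y' : F}
    (h : W.Nonsingular x y) (h' : W.Nonsingular x' y') (hx : x = x') (hy : y = y') :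
    Point.some x y h = Point.some x' y' h' := by
  subst hx hy; rfl

/-- Evaluation of the reduction map on an integral affine point. -/
lemma redFun_some (h : GoodRed A π WA) {x y : L}
    (hxy : (WA.map A.subtype).toAffine.Nonsingular x y) (X Y : A) (hX : x = X) (hY : y = Y)
    (hk : (WA.map π).toAffine.Nonsingular (π X) (π Y)) :
    redFun h (Point.some x y hxy) = Point.some (π X) (π Y) hk := by
  subst hX hY
  have hx : (X : L) ∈ A := X.2
  simp only [redFun, dif_pos hx]

lemma redFun_some_of_not_mem (h : GoodRed A π WA) {x y : L}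
    (hxy : (WA.map A.subtype).toAffine.Nonsingular x y) (hx : x ∉ A) :
    redFun h (Point.some x y hxy) = 0 := by
  simp only [redFun, dif_neg hx]

variable [DecidableEq L] [DecidableEq k]

/-- The reduction map vanishes exactly on the kernel of reduction. -/
lemma redFun_eq_zero_iff (h : GoodRed A π WA) (P : (WA.map A.subtype).toAffine.Point) :
    redFun h P = 0 ↔ P ∈ E1 (integralCoeffs_map A WA) := by
  rw [mem_E1_iff]
  rcases P with _ | ⟨x, y, hxy⟩
  · exact ⟨fun _ => Or.inl rfl, fun _ => rfl⟩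
  · by_cases hx : x ∈ A
    · have hy := y_mem_of_x_mem A _ (integralCoeffs_map A WA) hxy.1 hx
      rw [redFun_some h hxy ⟨x, hx⟩ ⟨y, hy⟩ rfl rfl
        (h.nonsingular_red (X := ⟨x, hx⟩) (Y := ⟨y, hy⟩) hxy.1)]
      constructor
      · intro h0; exact absurd h0 (Point.some_ne_zero _)
      · rintro (h0 | h0)
        · exact absurd h0 (Point.some_ne_zero _)
        · exact absurd hx h0
    · rw [redFun_some_of_not_mem h hxy hx]
      exact ⟨fun _ => Or.inr hx, fun _ => rfl⟩

/-- A point outside the kernel of reduction is an affine point with coordinates in `A`. -/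
lemma exists_lift_of_not_mem_E1 {P : (WA.map A.subtype).toAffine.Point}
    (hP : P ∉ E1 (integralCoeffs_map A WA)) :
    ∃ (X Y : A) (hxy : (WA.map A.subtype).toAffine.Nonsingular (X : L) (Y : L)),
      P = Point.some (X : L) (Y : L) hxy := by
  rw [mem_E1_iff, not_or, not_not] at hP
  rcases P with _ | ⟨x, y, hxy⟩
  · exact absurd rfl hP.1
  · have hx : x ∈ A := hP.2
    have hy := y_mem_of_x_mem A _ (integralCoeffs_map A WA) hxy.1 hx
    exact ⟨⟨x, hx⟩, ⟨y, hy⟩, hxy, rfl⟩

lemma some_coe_not_mem_E1 {X Y : A}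
    (hxy : (WA.map A.subtype).toAffine.Nonsingular (X : L) (Y : L)) :
    Point.some (X : L) (Y : L) hxy ∉ E1 (integralCoeffs_map A WA) := by
  rw [mem_E1_iff, not_or, not_not]
  exact ⟨Point.some_ne_zero _, X.2⟩

/-- Chord case: if the reductions have different `x`-coordinates, the sum is integral and is
computed by the same formula on both sides. -/
theorem chord_coords (h : GoodRed A π WA) {X₁ Y₁ X₂ Y₂ : A}
    (h₁ : (WA.map A.subtype).toAffine.Nonsingular (X₁ : L) (Y₁ : L))
    (h₂ : (WA.map A.subtype).toAffine.Nonsingular (X₂ : L) (Y₂ : L))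
    (hne : π X₁ ≠ π X₂) :
    ∃ (X₃ Y₃ : A) (h₃ : (WA.map A.subtype).toAffine.Nonsingular (X₃ : L) (Y₃ : L)),
      Point.some _ _ h₁ + Point.some _ _ h₂ = Point.some _ _ h₃ ∧
      ∀ (hk₁ : (WA.map π).toAffine.Nonsingular (π X₁) (π Y₁))
        (hk₂ : (WA.map π).toAffine.Nonsingular (π X₂) (π Y₂))
        (hk₃ : (WA.map π).toAffine.Nonsingular (π X₃) (π Y₃)),
        Point.some _ _ hk₁ + Point.some _ _ hk₂ = Point.some _ _ hk₃ := by
  have hXne : (X₁ : L) ≠ (X₂ : L) := by
    intro hX
    exact hne (congrArg π (Subtype.ext hX))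
  have hsub : π (X₁ - X₂) ≠ 0 := by rw [map_sub]; exact sub_ne_zero.mpr hne
  obtain ⟨u, hu⟩ := h.exists_mul_eq_one hsub
  set ℓ : A := (Y₁ - Y₂) * u with hℓ
  have huL : ((X₁ : L) - (X₂ : L)) * (u : L) = 1 := by
    have := congrArg (Subtype.val) hu
    simpa using this
  have hℓL : (WA.map A.subtype).toAffine.slope (X₁ : L) (X₂ : L) (Y₁ : L) (Y₂ : L) = (ℓ : L) := by
    rw [Affine.slope_of_X_ne hXne, div_eq_iff (sub_ne_zero.mpr hXne)]
    simp only [hℓ, MulMemClass.coe_mul, AddSubgroupClass.coe_sub]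
    linear_combination (-(Y₁ : L) + (Y₂ : L)) * huL
  have huk : (π X₁ - π X₂) * π u = 1 := by
    rw [← map_sub, ← map_mul, hu, map_one]
  have hℓk : (WA.map π).toAffine.slope (π X₁) (π X₂) (π Y₁) (π Y₂) = π ℓ := by
    rw [Affine.slope_of_X_ne hne, div_eq_iff (sub_ne_zero.mpr hne)]
    simp only [hℓ, map_mul, map_sub]
    linear_combination (-(π Y₁) + (π Y₂)) * huk
  have hX₃ : (WA.map A.subtype).toAffine.addX (X₁ : L) (X₂ : L)
      ((WA.map A.subtype).toAffine.slope (X₁ : L) (X₂ : L) (Y₁ : L) (Y₂ : L)) =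
      ((WA.addX X₁ X₂ ℓ : A) : L) := by
    rw [hℓL]; exact Affine.map_addX A.subtype X₁ X₂ ℓ
  have hY₃ : (WA.map A.subtype).toAffine.addY (X₁ : L) (X₂ : L) (Y₁ : L)
      ((WA.map A.subtype).toAffine.slope (X₁ : L) (X₂ : L) (Y₁ : L) (Y₂ : L)) =
      ((WA.addY X₁ X₂ Y₁ ℓ : A) : L) := by
    rw [hℓL]; exact Affine.map_addY A.subtype X₁ Y₁ X₂ ℓ
  have hns : (WA.map A.subtype).toAffine.Nonsingular ((WA.addX X₁ X₂ ℓ : A) : L)
      ((WA.addY X₁ X₂ Y₁ ℓ : A) : L) := by
    rw [← hX₃, ← hY₃]
    exact Affine.nonsingular_add h₁ h₂ (fun hxy => hXne hxy.1)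
  refine ⟨WA.addX X₁ X₂ ℓ, WA.addY X₁ X₂ Y₁ ℓ, hns, ?_, ?_⟩
  · rw [Point.add_of_X_ne hXne]
    exact some_eq_some _ _ hX₃ hY₃
  · intro hk₁ hk₂ hk₃
    rw [Point.add_of_X_ne hne]
    refine some_eq_some _ _ ?_ ?_
    · rw [hℓk]; exact Affine.map_addX π X₁ X₂ ℓ
    · rw [hℓk]; exact Affine.map_addY π X₁ Y₁ X₂ ℓ

/-- Tangent case: if the reduction is not a 2-torsion point, the double is integral and is
computed by the same formula on both sides. -/
theorem tangent_coords (h : GoodRed A π WA) {X Y : A}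
    (hxy : (WA.map A.subtype).toAffine.Nonsingular (X : L) (Y : L))
    (hne : π Y ≠ (WA.map π).toAffine.negY (π X) (π Y)) :
    ∃ (X₃ Y₃ : A) (h₃ : (WA.map A.subtype).toAffine.Nonsingular (X₃ : L) (Y₃ : L)),
      Point.some _ _ hxy + Point.some _ _ hxy = Point.some _ _ h₃ ∧
      ∀ (hk : (WA.map π).toAffine.Nonsingular (π X) (π Y))
        (hk₃ : (WA.map π).toAffine.Nonsingular (π X₃) (π Y₃)),
        Point.some _ _ hk + Point.some _ _ hk = Point.some _ _ hk₃ := by
  have hnegk : (WA.map π).toAffine.negY (π X) (π Y) = π (WA.negY X Y) := Affine.map_negY π X Y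
  have hnegL : (WA.map A.subtype).toAffine.negY (X : L) (Y : L) = ((WA.negY X Y : A) : L) :=
    Affine.map_negY A.subtype X Y
  have hsub : π (Y - WA.negY X Y) ≠ 0 := by
    rw [map_sub, ← hnegk]; exact sub_ne_zero.mpr hne
  obtain ⟨u, hu⟩ := h.exists_mul_eq_one hsub
  set ℓ : A := (3 * X ^ 2 + 2 * WA.a₂ * X + WA.a₄ - WA.a₁ * Y) * u with hℓ
  have hYne : (Y : L) ≠ (WA.map A.subtype).toAffine.negY (X : L) (Y : L) := by
    rw [hnegL]
    intro hY
    apply hsub
    have hY' : Y = WA.negY X Y := Subtype.ext hY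
    rw [sub_eq_zero.mpr hY', map_zero]
  have huL : ((Y : L) - ((WA.negY X Y : A) : L)) * (u : L) = 1 := by
    have := congrArg (Subtype.val) hu
    simpa using this
  have hℓL : (WA.map A.subtype).toAffine.slope (X : L) (X : L) (Y : L) (Y : L) = (ℓ : L) := by
    rw [Affine.slope_of_Y_ne rfl hYne, div_eq_iff (sub_ne_zero.mpr hYne), hnegL]
    simp only [hℓ, WeierstrassCurve.map_a₁, WeierstrassCurve.map_a₂, WeierstrassCurve.map_a₄,
      ValuationSubring.subtype_apply, MulMemClass.coe_mul, AddSubgroupClass.coe_sub,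
      AddMemClass.coe_add, SubmonoidClass.coe_pow]
    have e3 : ((3 : A) : L) = 3 := rfl
    have e2 : ((2 : A) : L) = 2 := rfl
    rw [e3, e2]
    linear_combination (-(3 * (X : L) ^ 2 + 2 * (WA.a₂ : L) * (X : L) + (WA.a₄ : L)
      - (WA.a₁ : L) * (Y : L))) * huL
  have huk : (π Y - π (WA.negY X Y)) * π u = 1 := by
    rw [← map_sub, ← map_mul, hu, map_one]
  have hℓk : (WA.map π).toAffine.slope (π X) (π X) (π Y) (π Y) = π ℓ := by
    rw [Affine.slope_of_Y_ne rfl hne, div_eq_iff (sub_ne_zero.mpr hne), hnegk]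
    simp only [hℓ, WeierstrassCurve.map_a₁, WeierstrassCurve.map_a₂, WeierstrassCurve.map_a₄,
      map_mul, map_sub, map_add, map_pow, map_ofNat]
    linear_combination (-(3 * (π X) ^ 2 + 2 * (π WA.a₂) * (π X) + (π WA.a₄)
      - (π WA.a₁) * (π Y))) * huk
  have hX₃ : (WA.map A.subtype).toAffine.addX (X : L) (X : L)
      ((WA.map A.subtype).toAffine.slope (X : L) (X : L) (Y : L) (Y : L)) =
      ((WA.addX X X ℓ : A) : L) := by
    rw [hℓL]; exact Affine.map_addX A.subtype X X ℓ
  have hY₃ : (WA.map A.subtype).toAffine.addY (X : L) (X : L) (Y : L)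
      ((WA.map A.subtype).toAffine.slope (X : L) (X : L) (Y : L) (Y : L)) =
      ((WA.addY X X Y ℓ : A) : L) := by
    rw [hℓL]; exact Affine.map_addY A.subtype X Y X ℓ
  have hns : (WA.map A.subtype).toAffine.Nonsingular ((WA.addX X X ℓ : A) : L)
      ((WA.addY X X Y ℓ : A) : L) := by
    rw [← hX₃, ← hY₃]
    exact Affine.nonsingular_add hxy hxy (fun hh => hYne hh.2)
  refine ⟨WA.addX X X ℓ, WA.addY X X Y ℓ, hns, ?_, ?_⟩
  · rw [Point.add_self_of_Y_ne hYne]
    exact some_eq_some _ _ hX₃ hY₃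
  · intro hk hk₃
    rw [Point.add_self_of_Y_ne hne]
    refine some_eq_some _ _ ?_ ?_
    · rw [hℓk]; exact Affine.map_addX π X X ℓ
    · rw [hℓk]; exact Affine.map_addY π X Y X ℓ

/-- Two integral points with the same reduction differ by an element of the kernel of
reduction. -/
theorem sub_mem_E1_of_red_eq (h : GoodRed A π WA) {X Y X' Y' : A}
    (hxy : (WA.map A.subtype).toAffine.Nonsingular (X : L) (Y : L))
    (hxy' : (WA.map A.subtype).toAffine.Nonsingular (X' : L) (Y' : L))
    (hX : π X' = π X) (hY : π Y' = π Y) :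
    Point.some _ _ hxy' - Point.some _ _ hxy ∈ E1 (integralCoeffs_map A WA) := by
  have hW := integralCoeffs_map A WA
  have hns := ((Affine.nonsingular_iff' _ _).mp (h.nonsingular_red hxy.1)).2
  have hns' : (WA.map A.subtype).toAffine.a₁ * (Y : L) -
        (3 * (X : L) ^ 2 + 2 * (WA.map A.subtype).toAffine.a₂ * (X : L) +
          (WA.map A.subtype).toAffine.a₄) ∉ A.nonunits ∨
      2 * (Y : L) + (WA.map A.subtype).toAffine.a₁ * (X : L) +
        (WA.map A.subtype).toAffine.a₃ ∉ A.nonunits := by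
    rcases hns with h1 | h2
    · left
      intro hmem
      apply h1
      have e : (WA.map π).toAffine.a₁ * π Y -
          (3 * π X ^ 2 + 2 * (WA.map π).toAffine.a₂ * π X + (WA.map π).toAffine.a₄) =
          π (WA.a₁ * Y - (3 * X ^ 2 + 2 * WA.a₂ * X + WA.a₄)) := by
        simp only [WeierstrassCurve.map_a₁, WeierstrassCurve.map_a₂, WeierstrassCurve.map_a₄,
          map_mul, map_sub, map_add, map_pow, map_ofNat]
      rw [e, h.ker]
      exact hmem
    · right
      intro hmem
      apply h2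
      have e : 2 * π Y + (WA.map π).toAffine.a₁ * π X + (WA.map π).toAffine.a₃ =
          π (2 * Y + WA.a₁ * X + WA.a₃) := by
        simp only [WeierstrassCurve.map_a₁, WeierstrassCurve.map_a₃,
          map_mul, map_add, map_ofNat]
      rw [e, h.ker]
      exact hmem
  rcases Fermat.Agent.S05.H63.some_sub_some_eq_zero_or_X_not_mem A (WA.map A.subtype).toAffine
      hW.a₁ hW.a₂ hW.a₃ hW.a₄ hxy hxy' X.2 Y.2 (h.mem_nonunits_of_eq hX)
      (h.mem_nonunits_of_eq hY) hns' with h0 | ⟨x'', y'', h'', heq, hx''⟩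
  · rw [h0]; exact (E1 hW).zero_mem
  · rw [heq, mem_E1_iff]
    exact Or.inr hx''

/-- The negative of an integral point, with its lifted coordinates. -/
lemma neg_some_coe {X Y : A}
    (hxy : (WA.map A.subtype).toAffine.Nonsingular (X : L) (Y : L)) :
    ∃ hneg : (WA.map A.subtype).toAffine.Nonsingular (X : L) ((WA.negY X Y : A) : L),
      -Point.some _ _ hxy = Point.some _ _ hneg := by
  have hnegL : (WA.map A.subtype).toAffine.negY (X : L) (Y : L) = ((WA.negY X Y : A) : L) :=
    Affine.map_negY A.subtype X Y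
  have hneg : (WA.map A.subtype).toAffine.Nonsingular (X : L) ((WA.negY X Y : A) : L) := by
    rw [← hnegL]; exact (Affine.nonsingular_neg _ _).mpr hxy
  refine ⟨hneg, ?_⟩
  rw [Point.neg_some]
  exact some_eq_some _ _ rfl hnegL

/-- Adding an element of the kernel of reduction does not change the reduction. -/
theorem redFun_add_of_mem_E1 (h : GoodRed A π WA) {P T : (WA.map A.subtype).toAffine.Point}
    (hP : P ∉ E1 (integralCoeffs_map A WA)) (hT : T ∈ E1 (integralCoeffs_map A WA)) :
    redFun h (P + T) = redFun h P := by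
  have hW := integralCoeffs_map A WA
  obtain ⟨X, Y, hxy, rfl⟩ := exists_lift_of_not_mem_E1 hP
  have hP' : Point.some _ _ hxy + T ∉ E1 hW := by
    intro hmem
    apply hP
    have := (E1 hW).sub_mem hmem hT
    rwa [add_sub_cancel_right] at this
  obtain ⟨X', Y', hxy', hP'eq⟩ := exists_lift_of_not_mem_E1 hP'
  have hT' : T = Point.some _ _ hxy' - Point.some _ _ hxy := by
    rw [← hP'eq, add_sub_cancel_left]
  obtain ⟨hnegns, hneg⟩ := neg_some_coe hxy
  have hnegk : (WA.map π).toAffine.negY (π X) (π Y) = π (WA.negY X Y) := Affine.map_negY π X Y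
  -- the `x`-coordinates have the same reduction
  have hX : π X' = π X := by
    by_contra hne
    obtain ⟨X₃, Y₃, h₃, hsum, -⟩ := chord_coords h hxy' hnegns hne
    apply some_coe_not_mem_E1 h₃
    rw [← hsum, ← hneg, ← sub_eq_add_neg, ← hT']
    exact hT
  -- the `y`-coordinates have the same reduction
  have hY : π Y' = π Y := by
    by_contra hne
    have hYk := Affine.Y_eq_of_X_eq (h.nonsingular_red hxy'.1).1 (h.nonsingular_red hxy.1).1 hX
    have hY' : π Y' = (WA.map π).toAffine.negY (π X) (π Y) := hYk.resolve_left hne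
    have h1 := sub_mem_E1_of_red_eq h hnegns hxy' hX (by rw [hY', hnegk])
    have h2 : Point.some _ _ hxy + Point.some _ _ hxy ∈ E1 hW := by
      have h3 := (E1 hW).sub_mem h1 hT
      have e : Point.some _ _ hxy' - Point.some _ _ hnegns - T =
          Point.some _ _ hxy + Point.some _ _ hxy := by
        rw [hT', ← hneg]; abel
      rwa [e] at h3
    have hne' : π Y ≠ (WA.map π).toAffine.negY (π X) (π Y) := by
      rw [← hY']; exact fun e => hne e.symm
    obtain ⟨X₃, Y₃, h₃, hsum, -⟩ := tangent_coords h hxy hne'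
    apply some_coe_not_mem_E1 h₃
    rw [← hsum]
    exact h2
  rw [hP'eq, redFun_some h hxy' X' Y' rfl rfl (h.nonsingular_red hxy'.1),
    redFun_some h hxy X Y rfl rfl (h.nonsingular_red hxy.1)]
  exact some_eq_some _ _ hX hY

/-- **Reduction is additive.** -/
theorem redFun_add (h : GoodRed A π WA) (P Q : (WA.map A.subtype).toAffine.Point) :
    redFun h (P + Q) = redFun h P + redFun h Q := by
  have hW := integralCoeffs_map A WA
  by_cases hP : P ∈ E1 hW
  · by_cases hQ : Q ∈ E1 hW
    · rw [(redFun_eq_zero_iff h _).mpr hP, (redFun_eq_zero_iff h _).mpr hQ,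
        (redFun_eq_zero_iff h _).mpr ((E1 hW).add_mem hP hQ), add_zero]
    · rw [(redFun_eq_zero_iff h _).mpr hP, zero_add, add_comm,
        redFun_add_of_mem_E1 h hQ hP]
  · by_cases hQ : Q ∈ E1 hW
    · rw [(redFun_eq_zero_iff h _).mpr hQ, add_zero, redFun_add_of_mem_E1 h hP hQ]
    · obtain ⟨X₁, Y₁, h₁, rfl⟩ := exists_lift_of_not_mem_E1 hP
      obtain ⟨X₂, Y₂, h₂, rfl⟩ := exists_lift_of_not_mem_E1 hQ
      have hk₁ := h.nonsingular_red h₁.1
      have hk₂ := h.nonsingular_red h₂.1
      rw [redFun_some h h₁ X₁ Y₁ rfl rfl hk₁, redFun_some h h₂ X₂ Y₂ rfl rfl hk₂]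
      by_cases hne : π X₁ = π X₂
      · by_cases hneg : π Y₁ = (WA.map π).toAffine.negY (π X₂) (π Y₂)
        · -- the reductions are opposite
          rw [Point.add_of_Y_eq hne hneg, redFun_eq_zero_iff]
          obtain ⟨hnegns, hnegeq⟩ := neg_some_coe h₂
          have hnegk : (WA.map π).toAffine.negY (π X₂) (π Y₂) = π (WA.negY X₂ Y₂) :=
            Affine.map_negY π X₂ Y₂
          have h1 := sub_mem_E1_of_red_eq h hnegns h₁ hne (by rw [hneg, hnegk])
          rwa [← hnegeq, sub_neg_eq_add] at h1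
        · -- the reductions are equal and not 2-torsion
          have hYk := Affine.Y_eq_of_X_eq hk₁.1 hk₂.1 hne
          have hY : π Y₁ = π Y₂ := hYk.resolve_right hneg
          have hT := sub_mem_E1_of_red_eq h h₂ h₁ hne hY
          have hne₂ : π Y₂ ≠ (WA.map π).toAffine.negY (π X₂) (π Y₂) :=
            fun e => hneg (hY.trans e)
          obtain ⟨X₃, Y₃, h₃, hsum, hsumk⟩ := tangent_coords h h₂ hne₂
          have hk₃ := h.nonsingular_red h₃.1
          have e : Point.some _ _ h₁ + Point.some _ _ h₂ =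
              Point.some _ _ h₃ + (Point.some _ _ h₁ - Point.some _ _ h₂) := by
            rw [← hsum]; abel
          rw [e, redFun_add_of_mem_E1 h (some_coe_not_mem_E1 h₃) hT,
            redFun_some h h₃ X₃ Y₃ rfl rfl hk₃, ← hsumk hk₂ hk₃]
          congr 1
          exact some_eq_some _ _ hne.symm hY.symm
      · obtain ⟨X₃, Y₃, h₃, hsum, hsumk⟩ := chord_coords h h₁ h₂ hne
        have hk₃ := h.nonsingular_red h₃.1
        rw [hsum, redFun_some h h₃ X₃ Y₃ rfl rfl hk₃, hsumk hk₁ hk₂ hk₃]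

/-- The reduction homomorphism. -/
noncomputable def red (h : GoodRed A π WA) :
    (WA.map A.subtype).toAffine.Point →+ (WA.map π).toAffine.Point :=
  AddMonoidHom.mk' (redFun h) (redFun_add h)

lemma red_apply (h : GoodRed A π WA) (P : (WA.map A.subtype).toAffine.Point) :
    red h P = redFun h P := rfl

theorem red_eq_zero_iff (h : GoodRed A π WA) (P : (WA.map A.subtype).toAffine.Point) :
    red h P = 0 ↔ P ∈ E1 (integralCoeffs_map A WA) :=
  redFun_eq_zero_iff h P

theorem red_some (h : GoodRed A π WA) {x y : L}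
    (hxy : (WA.map A.subtype).toAffine.Nonsingular x y) (X Y : A) (hX : x = X) (hY : y = Y)
    (hk : (WA.map π).toAffine.Nonsingular (π X) (π Y)) :
    red h (Point.some x y hxy) = Point.some (π X) (π Y) hk :=
  redFun_some h hxy X Y hX hY hk

end Red

section Wrapper

variable {L : Type*} [Field L] [DecidableEq L] {k : Type*} [Field k] [DecidableEq k]

/-- The model over `A` of a curve with coefficients in `A`. -/
def integralModel (A : ValuationSubring L) (W : Affine L) (hW : IntegralCoeffs A W) : Affine A :=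
  ⟨⟨W.a₁, hW.a₁⟩, ⟨W.a₂, hW.a₂⟩, ⟨W.a₃, hW.a₃⟩, ⟨W.a₄, hW.a₄⟩, ⟨W.a₆, hW.a₆⟩⟩

lemma integralModel_map (A : ValuationSubring L) (W : Affine L) (hW : IntegralCoeffs A W) :
    (integralModel A W hW).map A.subtype = W := by
  ext <;> rfl

theorem exists_red_hom_aux (A : ValuationSubring L) (π : A →+* k)
    (hker : ∀ a : A, π a = 0 ↔ (a : L) ∈ A.nonunits) (WA : Affine A)
    (W : Affine L) (Wk : Affine k) (eL : WA.map A.subtype = W) (ek : WA.map π = Wk)
    (hΔ : Wk.Δ ≠ 0) (hW : IntegralCoeffs A W) :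
    ∃ r : W.Point →+ Wk.Point,
      (∀ P, r P = 0 ↔ P ∈ E1 hW) ∧
      ∀ (x y : L) (hxy : W.Nonsingular x y) (hx : x ∈ A) (hy : y ∈ A)
        (hk : Wk.Nonsingular (π ⟨x, hx⟩) (π ⟨y, hy⟩)),
        r (Point.some x y hxy) = Point.some (π ⟨x, hx⟩) (π ⟨y, hy⟩) hk := by
  subst eL ek
  have h : GoodRed A π WA := ⟨hker, hΔ⟩
  exact ⟨red h, fun P => red_eq_zero_iff h P,
    fun x y hxy hx hy hk => red_some h hxy ⟨x, hx⟩ ⟨y, hy⟩ rfl rfl hk⟩

/-- **RED-HOM.**  Let `A` be a valuation subring of `L`, `π : A →+* k` a ring homomorphism to a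
field with kernel the maximal ideal, `W` a Weierstrass curve over `L` with coefficients in `A`
and `Wk` the curve over `k` with the reduced coefficients, `Wk.Δ ≠ 0`.  Then there is a group
homomorphism `W(L) → Wk(k)` whose kernel is `E1` (the points `0` and those with non-integral
`x`-coordinate) and which sends an affine point with coordinates in `A` to the point with the
reduced coordinates. -/
theorem exists_red_hom (A : ValuationSubring L) (π : A →+* k)
    (hker : ∀ a : A, π a = 0 ↔ (a : L) ∈ A.nonunits)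
    (W : Affine L) (hW : IntegralCoeffs A W) (Wk : Affine k)
    (h₁ : π ⟨W.a₁, hW.a₁⟩ = Wk.a₁) (h₂ : π ⟨W.a₂, hW.a₂⟩ = Wk.a₂)
    (h₃ : π ⟨W.a₃, hW.a₃⟩ = Wk.a₃) (h₄ : π ⟨W.a₄, hW.a₄⟩ = Wk.a₄)
    (h₆ : π ⟨W.a₆, hW.a₆⟩ = Wk.a₆) (hΔ : Wk.Δ ≠ 0) :
    ∃ r : W.Point →+ Wk.Point,
      (∀ P, r P = 0 ↔ P ∈ E1 hW) ∧
      ∀ (x y : L) (hxy : W.Nonsingular x y) (hx : x ∈ A) (hy : y ∈ A)
        (hk : Wk.Nonsingular (π ⟨x, hx⟩) (π ⟨y, hy⟩)),
        r (Point.some x y hxy) = Point.some (π ⟨x, hx⟩) (π ⟨y, hy⟩) hk :=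
  exists_red_hom_aux A π hker (integralModel A W hW) W Wk (integralModel_map A W hW)
    (by ext <;> assumption) hΔ hW

end Wrapper

end Fermat.Agent.S52.H61
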